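import Mathlib

/-!
# S59 / TW-HECKE (helper653), block BDRY: integral `2 × 2` matrices (Mathlib only)

* `tz h = [[1, h], [0, 1]] ∈ SL(2, ℤ)`;
* `exists_conj_tz` : every `γ ∈ SL(2, ℤ)` of trace `2` is `τ * tz h * τ⁻¹`;
* `hnf_diag`, `hnf_upper` : an integral matrix `Y` of prime determinant `l` is `g₀ * [[l,0],[0,1]]`
  (if `l` divides the first column of `Y`) or `g₀ * [[1,α],[0,l]]` with `M ∣ α` (otherwise),
  `g₀ ∈ SL(2, ℤ)`;
* `conj_diag_norm`, `conj_upper_norm` : `τ * b * τ⁻¹ ≡ 1 mod M` for these `b`, if `M ∣ l - 1`;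
* `diag_mul_tz`, `upper_mul_tz`, `dvd_of_upper_mul_tz`.
-/

set_option autoImplicit false

namespace Fermat.Agent.S59.TW.H653.Bdry

open Matrix
open scoped MatrixGroups

/-- `[[1, h], [0, 1]]`. -/
def tz (h : ℤ) : SL(2, ℤ) := ⟨!![1, h; 0, 1], by simp [Matrix.det_fin_two_of]⟩

@[simp] theorem coe_tz (h : ℤ) : ((tz h : SL(2, ℤ)) : Matrix (Fin 2) (Fin 2) ℤ) = !![1, h; 0, 1] :=
  rfl

theorem tz_zero : tz 0 = 1 := by
  apply Subtype.ext
  ext i j
  fin_cases i <;> fin_cases j <;> simp [tz]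

theorem tz_add (a b : ℤ) : tz (a + b) = tz a * tz b := by
  apply Subtype.ext
  show ((tz (a + b) : SL(2, ℤ)) : Matrix (Fin 2) (Fin 2) ℤ) = ((tz a * tz b : SL(2, ℤ)) :
    Matrix (Fin 2) (Fin 2) ℤ)
  rw [Matrix.SpecialLinearGroup.coe_mul, coe_tz, coe_tz, coe_tz]
  ext i j
  fin_cases i <;> fin_cases j <;>
    simp only [Matrix.mul_apply, Fin.sum_univ_two, Matrix.of_apply, Matrix.cons_val',
      Matrix.cons_val_zero, Matrix.cons_val_one, Matrix.cons_val_fin_one, Fin.zero_eta,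
      Fin.mk_one, Fin.isValue] <;>
    ring1

theorem tz_pow (h : ℤ) (n : ℕ) : tz h ^ n = tz (n * h) := by
  induction n with
  | zero => simp [tz_zero]
  | succ n ih =>
    rw [pow_succ, ih, ← tz_add]
    congr 1
    push_cast
    ring

theorem tz_inv (h : ℤ) : (tz h)⁻¹ = tz (-h) := by
  rw [inv_eq_iff_mul_eq_one, ← tz_add, add_neg_cancel, tz_zero]

theorem tz_zpow (h n : ℤ) : tz h ^ n = tz (n * h) := by
  induction n using Int.induction_on with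
  | zero => simp [tz_zero]
  | succ n ih =>
    rw [_root_.zpow_add_one, ih, ← tz_add]
    congr 1
    ring
  | pred n ih =>
    rw [_root_.zpow_sub_one, ih, tz_inv, ← tz_add]
    congr 1
    ring

/-- The conjugate `τ * tz h * τ⁻¹`. -/
def uni (τ : SL(2, ℤ)) (h : ℤ) : SL(2, ℤ) := τ * tz h * τ⁻¹

theorem uni_pow (τ : SL(2, ℤ)) (h : ℤ) (n : ℕ) : uni τ h ^ n = uni τ (n * h) := by
  unfold uni
  rw [conj_pow, tz_pow]

theorem uni_zpow (τ : SL(2, ℤ)) (h n : ℤ) : uni τ h ^ n = uni τ (n * h) := by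
  unfold uni
  rw [conj_zpow, tz_zpow]

theorem uni_mul (τ : SL(2, ℤ)) (h k : ℤ) : uni τ h * uni τ k = uni τ (h + k) := by
  unfold uni
  rw [tz_add]
  group

theorem uni_zero (τ : SL(2, ℤ)) : uni τ 0 = 1 := by
  unfold uni
  rw [tz_zero]
  group

/-- The entries of `τ * tz h * τ⁻¹`. -/
theorem coe_uni (τ : SL(2, ℤ)) (h : ℤ) :
    ((uni τ h : SL(2, ℤ)) : Matrix (Fin 2) (Fin 2) ℤ) =
      !![1 - h * (τ 0 0 * τ 1 0), h * (τ 0 0 * τ 0 0);
         -(h * (τ 1 0 * τ 1 0)), 1 + h * (τ 0 0 * τ 1 0)] := by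
  have hdet : τ 0 0 * τ 1 1 - τ 0 1 * τ 1 0 = 1 := by
    have := τ.det_coe
    rwa [Matrix.det_fin_two] at this
  have e1 : ((τ⁻¹ : SL(2, ℤ)) : Matrix (Fin 2) (Fin 2) ℤ) =
      !![τ 1 1, -τ 0 1; -τ 1 0, τ 0 0] := by
    rw [Matrix.SpecialLinearGroup.SL2_inv_expl]
    rfl
  unfold uni
  rw [Matrix.SpecialLinearGroup.coe_mul, Matrix.SpecialLinearGroup.coe_mul, e1, coe_tz]
  ext i j
  fin_cases i <;> fin_cases j <;>
    simp only [Matrix.mul_apply, Fin.sum_univ_two, Matrix.of_apply, Matrix.cons_val',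
      Matrix.cons_val_zero, Matrix.cons_val_one, Matrix.cons_val_fin_one, Fin.zero_eta,
      Fin.mk_one, Fin.isValue] <;>
    first | ring1 | linear_combination hdet

/-! ## Classification of the elements of trace `2` -/

/-- Every element of `SL(2, ℤ)` of trace `2` is conjugate to some `tz h`. -/
theorem exists_conj_tz (γ : SL(2, ℤ)) (hγ : (γ : Matrix (Fin 2) (Fin 2) ℤ).trace = 2) :
    ∃ (τ : SL(2, ℤ)) (h : ℤ), γ = uni τ h := by
  have hdet : γ 0 0 * γ 1 1 - γ 0 1 * γ 1 0 = 1 := by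
    have := γ.det_coe
    rwa [Matrix.det_fin_two] at this
  have htr : γ 0 0 + γ 1 1 = 2 := by
    rwa [Matrix.trace_fin_two] at hγ
  by_cases hr : γ 1 0 = 0
  · -- `γ = tz q`
    have hp : (γ 0 0 - 1) * (γ 0 0 - 1) = 0 := by
      rw [hr] at hdet
      linear_combination (-1 : ℤ) * hdet + γ 0 0 * htr
    have hp1 : γ 0 0 = 1 := by
      have := mul_self_eq_zero.mp hp
      linarith
    have hs1 : γ 1 1 = 1 := by linarith
    refine ⟨1, γ 0 1, ?_⟩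
    apply Subtype.ext
    show (γ : Matrix (Fin 2) (Fin 2) ℤ) = ((uni 1 (γ 0 1) : SL(2, ℤ)) : Matrix (Fin 2) (Fin 2) ℤ)
    rw [coe_uni]
    ext i j
    fin_cases i <;> fin_cases j <;>
      simp [hp1, hs1, hr]
  · obtain ⟨n, hn⟩ : ∃ n : ℤ, n = γ 0 0 - 1 := ⟨_, rfl⟩
    have hn2 : n * n + γ 0 1 * γ 1 0 = 0 := by
      rw [hn]
      linear_combination (-1 : ℤ) * hdet + γ 0 0 * htr
    obtain ⟨r, hr'⟩ : ∃ r : ℤ, r = γ 1 0 := ⟨_, rfl⟩
    rw [← hr'] at hn2 hr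
    obtain ⟨d, hd⟩ : ∃ d : ℤ, d = (Int.gcd n r : ℤ) := ⟨_, rfl⟩
    have hd0 : d ≠ 0 := by
      rw [hd]
      intro h0
      have : Int.gcd n r = 0 := by exact_mod_cast h0
      exact hr (Int.gcd_eq_zero_iff.mp this).2
    obtain ⟨a, ha⟩ : d ∣ n := hd ▸ Int.gcd_dvd_left n r
    obtain ⟨c, hc⟩ : d ∣ r := hd ▸ Int.gcd_dvd_right n r
    obtain ⟨A, hA⟩ : ∃ A : ℤ, A = Int.gcdA n r := ⟨_, rfl⟩
    obtain ⟨B, hB⟩ : ∃ B : ℤ, B = Int.gcdB n r := ⟨_, rfl⟩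
    have h1 : d = n * A + r * B := by
      rw [hd, hA, hB]
      exact Int.gcd_eq_gcd_ab n r
    have hbez : a * A + c * B = 1 := by
      have h2 : d * (a * A + c * B) = d * 1 := by
        linear_combination (-1 : ℤ) * h1 - A * ha - B * hc
      exact mul_left_cancel₀ hd0 h2
    have hc0 : c ≠ 0 := by
      rintro rfl
      exact hr (by rw [hc, mul_zero])
    -- `d * a * a + q * c = 0`
    have h3 : d * (d * (a * a) + γ 0 1 * c) = d * 0 := by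
      rw [mul_zero]
      rw [ha, hc] at hn2
      linear_combination hn2
    have h4 : d * (a * a) + γ 0 1 * c = 0 := mul_left_cancel₀ hd0 h3
    have hcop : IsCoprime c (a * a) := by
      have h5 : IsCoprime c a := ⟨B, A, by linear_combination hbez⟩
      exact h5.mul_right h5
    have hcd : c ∣ d := by
      apply hcop.dvd_of_dvd_mul_right
      exact ⟨-γ 0 1, by linear_combination h4⟩
    obtain ⟨e, he⟩ := hcd
    have hq : γ 0 1 = -(e * (a * a)) := by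
      have h6 : c * (γ 0 1 + e * (a * a)) = c * 0 := by
        rw [mul_zero]
        rw [he] at h4
        linear_combination h4
      have := mul_left_cancel₀ hc0 h6
      linarith
    let τ : SL(2, ℤ) := ⟨!![a, -B; c, A], by
      rw [Matrix.det_fin_two_of]
      linear_combination hbez⟩
    have hτ00 : τ 0 0 = a := rfl
    have hτ10 : τ 1 0 = c := rfl
    refine ⟨τ, -e, ?_⟩
    apply Subtype.ext
    show (γ : Matrix (Fin 2) (Fin 2) ℤ) = ((uni τ (-e) : SL(2, ℤ)) : Matrix (Fin 2) (Fin 2) ℤ)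
    rw [coe_uni, hτ00, hτ10]
    have e00 : γ 0 0 = 1 - -e * (a * c) := by
      have : γ 0 0 = n + 1 := by rw [hn]; ring
      rw [this, ha, he]
      ring
    have e10 : γ 1 0 = -(-e * (c * c)) := by
      rw [← hr', hc, he]
      ring
    have e11 : γ 1 1 = 1 + -e * (a * c) := by
      have : γ 1 1 = 1 - n := by rw [hn]; linarith
      rw [this, ha, he]
      ring
    have e01 : γ 0 1 = -e * (a * a) := by
      rw [hq]
      ring
    ext i j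
    fin_cases i <;> fin_cases j
    · exact e00
    · exact e01
    · exact e10
    · exact e11

/-! ## Hermite normal form for prime determinant -/

/-- If `l` divides the first column of `Y` and `det Y = l ≠ 0`, then `Y = g₀ * [[l,0],[0,1]]`. -/
theorem hnf_diag {l : ℤ} (hl : l ≠ 0) (Y : Matrix (Fin 2) (Fin 2) ℤ) (hY : Y.det = l)
    (h0 : l ∣ Y 0 0) (h1 : l ∣ Y 1 0) :
    ∃ g₀ : SL(2, ℤ), Y = (g₀ : Matrix (Fin 2) (Fin 2) ℤ) * !![l, 0; 0, 1] := by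
  obtain ⟨a, ha⟩ := h0
  obtain ⟨c, hc⟩ := h1
  rw [Matrix.det_fin_two] at hY
  have hdet : a * Y 1 1 - Y 0 1 * c = 1 := by
    have h2 : l * (a * Y 1 1 - Y 0 1 * c) = l * 1 := by
      rw [ha, hc] at hY
      linear_combination hY
    exact mul_left_cancel₀ hl h2
  refine ⟨⟨!![a, Y 0 1; c, Y 1 1], by rw [Matrix.det_fin_two_of]; exact hdet⟩, ?_⟩
  ext i j
  fin_cases i <;> fin_cases j <;>
    simp [Matrix.mul_apply, Fin.sum_univ_two, ha, hc, mul_comm]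

/-- If `l` divides `Y 0 1 - α * Y 0 0` and `Y 1 1 - α * Y 1 0` and `det Y = l ≠ 0`, then
`Y = g₀ * [[1,α],[0,l]]`. -/
theorem hnf_upper_of {l : ℤ} (hl : l ≠ 0) (Y : Matrix (Fin 2) (Fin 2) ℤ) (hY : Y.det = l)
    (α : ℤ) (h0 : l ∣ Y 0 1 - α * Y 0 0) (h1 : l ∣ Y 1 1 - α * Y 1 0) :
    ∃ g₀ : SL(2, ℤ), Y = (g₀ : Matrix (Fin 2) (Fin 2) ℤ) * !![1, α; 0, l] := by
  obtain ⟨s, hs⟩ := h0
  obtain ⟨t, ht⟩ := h1
  rw [Matrix.det_fin_two] at hY
  have hdet : Y 0 0 * t - s * Y 1 0 = 1 := by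
    have h2 : l * (Y 0 0 * t - s * Y 1 0) = l * 1 := by
      linear_combination hY - Y 0 0 * ht + Y 1 0 * hs
    exact mul_left_cancel₀ hl h2
  refine ⟨⟨!![Y 0 0, s; Y 1 0, t], by rw [Matrix.det_fin_two_of]; exact hdet⟩, ?_⟩
  ext i j
  fin_cases i <;> fin_cases j
  · simp [Matrix.mul_apply, Fin.sum_univ_two]
  · simp only [Matrix.mul_apply, Fin.sum_univ_two, Matrix.of_apply, Matrix.cons_val',
      Matrix.cons_val_zero, Matrix.cons_val_one, Matrix.cons_val_fin_one, Fin.zero_eta,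
      Fin.mk_one, Fin.isValue]
    linear_combination hs
  · simp [Matrix.mul_apply, Fin.sum_univ_two]
  · simp only [Matrix.mul_apply, Fin.sum_univ_two, Matrix.of_apply, Matrix.cons_val',
      Matrix.cons_val_zero, Matrix.cons_val_one, Matrix.cons_val_fin_one, Fin.zero_eta,
      Fin.mk_one, Fin.isValue]
    linear_combination ht

/-- If `l` (prime) does not divide the first column of `Y`, `det Y = l` and `M` is prime to
`l`, then `Y = g₀ * [[1,α],[0,l]]` for some natural number `α` divisible by `M`. -/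
theorem hnf_upper {l M : ℕ} (hl : l.Prime) (hlM : Nat.Coprime l M)
    (Y : Matrix (Fin 2) (Fin 2) ℤ) (hY : Y.det = l)
    (h : ¬ ((l : ℤ) ∣ Y 0 0 ∧ (l : ℤ) ∣ Y 1 0)) :
    ∃ (α : ℕ) (g₀ : SL(2, ℤ)), M ∣ α ∧
      Y = (g₀ : Matrix (Fin 2) (Fin 2) ℤ) * !![1, (α : ℤ); 0, (l : ℤ)] := by
  have : Fact l.Prime := ⟨hl⟩
  have hl0 : (l : ℤ) ≠ 0 := by exact_mod_cast hl.ne_zero
  have hdetz : (Y 0 0 : ZMod l) * (Y 1 1 : ZMod l) - (Y 0 1 : ZMod l) * (Y 1 0 : ZMod l) = 0 := by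
    rw [Matrix.det_fin_two] at hY
    have h2 : ((Y 0 0 * Y 1 1 - Y 0 1 * Y 1 0 : ℤ) : ZMod l) = ((l : ℤ) : ZMod l) := by
      rw [hY]
    push_cast at h2
    rw [h2]
    exact ZMod.natCast_self l
  -- a class `β` mod `l` with `Y 0 1 = β * Y 0 0`, `Y 1 1 = β * Y 1 0` mod `l`
  obtain ⟨β, hβ0, hβ1⟩ : ∃ β : ZMod l, (Y 0 1 : ZMod l) = β * (Y 0 0 : ZMod l) ∧
      (Y 1 1 : ZMod l) = β * (Y 1 0 : ZMod l) := by
    by_cases h00 : (Y 0 0 : ZMod l) = 0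
    · have h10 : (Y 1 0 : ZMod l) ≠ 0 := by
        intro h10
        exact h ⟨(ZMod.intCast_zmod_eq_zero_iff_dvd _ _).mp h00,
          (ZMod.intCast_zmod_eq_zero_iff_dvd _ _).mp h10⟩
      refine ⟨(Y 1 1 : ZMod l) * (Y 1 0 : ZMod l)⁻¹, ?_, ?_⟩
      · rw [h00, mul_zero]
        rw [h00, zero_mul, zero_sub, neg_eq_zero] at hdetz
        rcases mul_eq_zero.mp hdetz with h' | h'
        · exact h'
        · exact absurd h' h10
      · rw [mul_assoc, inv_mul_cancel₀ h10, mul_one]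
    · refine ⟨(Y 0 1 : ZMod l) * (Y 0 0 : ZMod l)⁻¹, ?_, ?_⟩
      · rw [mul_assoc, inv_mul_cancel₀ h00, mul_one]
      · have h2 : (Y 0 0 : ZMod l) * (Y 1 1 : ZMod l) = (Y 0 1 : ZMod l) * (Y 1 0 : ZMod l) :=
          sub_eq_zero.mp hdetz
        field_simp
        rw [mul_comm, h2]
  -- a natural number `α ≡ β mod l`, `α ≡ 0 mod M`
  obtain ⟨α, hα1, hα2⟩ := Nat.chineseRemainder hlM β.val 0
  have hαβ : ((α : ℕ) : ZMod l) = β := by
    have := (ZMod.natCast_eq_natCast_iff α β.val l).mpr hα1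
    rw [this, ZMod.natCast_zmod_val]
  have hαM : M ∣ α := (Nat.modEq_zero_iff_dvd).mp hα2
  have d0 : (l : ℤ) ∣ Y 0 1 - (α : ℤ) * Y 0 0 := by
    rw [← ZMod.intCast_zmod_eq_zero_iff_dvd]
    push_cast
    rw [hαβ, hβ0, sub_self]
  have d1 : (l : ℤ) ∣ Y 1 1 - (α : ℤ) * Y 1 0 := by
    rw [← ZMod.intCast_zmod_eq_zero_iff_dvd]
    push_cast
    rw [hαβ, hβ1, sub_self]
  obtain ⟨g₀, hg₀⟩ := hnf_upper_of hl0 Y hY (α : ℤ) d0 d1
  exact ⟨α, g₀, hαM, hg₀⟩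

/-! ## Explicit conjugates and relations -/

/-- `τ * [[l,0],[0,1]] * τ⁻¹`. -/
theorem conj_diag (τ : SL(2, ℤ)) (l : ℤ) :
    (τ : Matrix (Fin 2) (Fin 2) ℤ) * !![l, 0; 0, 1] * ((τ⁻¹ : SL(2, ℤ)) :
        Matrix (Fin 2) (Fin 2) ℤ) =
      !![1 + (l - 1) * (τ 0 0 * τ 1 1), -((l - 1) * (τ 0 0 * τ 0 1));
         (l - 1) * (τ 1 0 * τ 1 1), 1 - (l - 1) * (τ 0 1 * τ 1 0)] := by
  have hdet : τ 0 0 * τ 1 1 - τ 0 1 * τ 1 0 = 1 := by
    have := τ.det_coe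
    rwa [Matrix.det_fin_two] at this
  have e1 : ((τ⁻¹ : SL(2, ℤ)) : Matrix (Fin 2) (Fin 2) ℤ) =
      !![τ 1 1, -τ 0 1; -τ 1 0, τ 0 0] := by
    rw [Matrix.SpecialLinearGroup.SL2_inv_expl]
    rfl
  rw [e1]
  ext i j
  fin_cases i <;> fin_cases j <;>
    simp only [Matrix.mul_apply, Fin.sum_univ_two, Matrix.of_apply, Matrix.cons_val',
      Matrix.cons_val_zero, Matrix.cons_val_one, Matrix.cons_val_fin_one, Fin.zero_eta,
      Fin.mk_one, Fin.isValue] <;>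
    first | ring1 | linear_combination hdet

/-- `τ * [[1,α],[0,l]] * τ⁻¹`. -/
theorem conj_upper (τ : SL(2, ℤ)) (l α : ℤ) :
    (τ : Matrix (Fin 2) (Fin 2) ℤ) * !![1, α; 0, l] * ((τ⁻¹ : SL(2, ℤ)) :
        Matrix (Fin 2) (Fin 2) ℤ) =
      !![1 - α * (τ 0 0 * τ 1 0) - (l - 1) * (τ 0 1 * τ 1 0),
         α * (τ 0 0 * τ 0 0) + (l - 1) * (τ 0 0 * τ 0 1);
         -(α * (τ 1 0 * τ 1 0)) - (l - 1) * (τ 1 0 * τ 1 1),
         1 + α * (τ 0 0 * τ 1 0) + (l - 1) * (τ 0 0 * τ 1 1)] := by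
  have hdet : τ 0 0 * τ 1 1 - τ 0 1 * τ 1 0 = 1 := by
    have := τ.det_coe
    rwa [Matrix.det_fin_two] at this
  have e1 : ((τ⁻¹ : SL(2, ℤ)) : Matrix (Fin 2) (Fin 2) ℤ) =
      !![τ 1 1, -τ 0 1; -τ 1 0, τ 0 0] := by
    rw [Matrix.SpecialLinearGroup.SL2_inv_expl]
    rfl
  rw [e1]
  ext i j
  fin_cases i <;> fin_cases j <;>
    simp only [Matrix.mul_apply, Fin.sum_univ_two, Matrix.of_apply, Matrix.cons_val',
      Matrix.cons_val_zero, Matrix.cons_val_one, Matrix.cons_val_fin_one, Fin.zero_eta,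
      Fin.mk_one, Fin.isValue] <;>
    first | ring1 | linear_combination hdet

theorem diag_mul_tz (l h : ℤ) :
    (!![l, 0; 0, 1] : Matrix (Fin 2) (Fin 2) ℤ) * (tz h : Matrix (Fin 2) (Fin 2) ℤ) =
      (tz (l * h) : Matrix (Fin 2) (Fin 2) ℤ) * !![l, 0; 0, 1] := by
  rw [coe_tz, coe_tz]
  ext i j
  fin_cases i <;> fin_cases j <;>
    simp [Matrix.mul_apply, Fin.sum_univ_two]

theorem upper_mul_tz (l α h : ℤ) :
    (!![1, α; 0, l] : Matrix (Fin 2) (Fin 2) ℤ) * (tz (l * h) : Matrix (Fin 2) (Fin 2) ℤ) =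
      (tz h : Matrix (Fin 2) (Fin 2) ℤ) * !![1, α; 0, l] := by
  rw [coe_tz, coe_tz]
  ext i j
  fin_cases i <;> fin_cases j <;>
    simp [Matrix.mul_apply, Fin.sum_univ_two, add_comm, mul_comm]

/-- If `[[1,α],[0,l]] * tz h = c * [[1,α],[0,l]]` with `c` integral, then `l ∣ h`. -/
theorem dvd_of_upper_mul_tz {l α h : ℤ} {c : Matrix (Fin 2) (Fin 2) ℤ}
    (e : (!![1, α; 0, l] : Matrix (Fin 2) (Fin 2) ℤ) * (tz h : Matrix (Fin 2) (Fin 2) ℤ) =
      c * !![1, α; 0, l]) : l ∣ h := by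
  rw [coe_tz] at e
  have e00 := congrFun (congrFun e 0) 0
  have e01 := congrFun (congrFun e 0) 1
  simp only [Matrix.mul_apply, Fin.sum_univ_two, Matrix.of_apply, Matrix.cons_val',
    Matrix.cons_val_zero, Matrix.cons_val_one, Matrix.cons_val_fin_one, Fin.isValue] at e00 e01
  refine ⟨c 0 1, ?_⟩
  have h00 : c 0 0 = 1 := by linarith
  rw [h00] at e01
  linarith

end Fermat.Agent.S59.TW.H653.Bdry
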