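import Mathlib
import Fermat.Agent.S59.TW.H653.Bdry.IntMat
import Fermat.Agent.S59.TW.H653.Comm.Main
import Fermat.Agent.S59.TW.H653.Cycle

/-!
# S59 / TW-HECKE (helper653), block BDRY: the representatives of `T_l` and a unipotent element

`l` prime, `M ∣ l - 1`, `K` between `Γ₁(M)` and `Γ₀(M)`, `γ = uni τ h = τ * tz h * τ⁻¹`.
`zP τ l = τ * [[l,0],[0,1]] * τ⁻¹` and `zM τ l α = τ * [[1,α],[0,l]] * τ⁻¹` (`M ∣ α`) are integral,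
`≡ 1 mod M`, and `zP * γ = γ ^ l * zP`, `zM * γ ^ l = γ * zM`.

* `rep_dichotomy` : every integral normalised matrix `X` of determinant `l` is `k * zP` or
  `k * zM α` with `k ∈ K`;
* `act_coc_of_zP`, `act_coc_of_zM`, `act_ne_of_zM` : the consequences for a coset system.
-/

set_option autoImplicit false

namespace Fermat.Agent.S59.TW.H653.Bdry

open CongruenceSubgroup Matrix.SpecialLinearGroup ModularCurve.Period ModularForm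
open Fermat.Agent.S29.H642 Fermat.Agent.S41.H761 Fermat.Agent.S59.TW.H653
open P2MW.S_ModularForm_heckeT_slash_eq_self_of_mem_Gamma0.ModularForm.HeckeSlashInvariance
open scoped MatrixGroups

/-! ## Elements of `GL(2, ℝ)` with integral entries -/

/-- `X ∈ GL(2, ℝ)` has the integral entries `x`. -/
def IsInt (X : GL (Fin 2) ℝ) (x : Matrix (Fin 2) (Fin 2) ℤ) : Prop :=
  ∀ i j, (X : Matrix (Fin 2) (Fin 2) ℝ) i j = ((x i j : ℤ) : ℝ)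

theorem isInt_mapGL (g : SL(2, ℤ)) : IsInt (mapGL ℝ g) (g : Matrix (Fin 2) (Fin 2) ℤ) :=
  fun i j => coe_mapGL_apply g i j

theorem IsInt.mul {X Y : GL (Fin 2) ℝ} {x y : Matrix (Fin 2) (Fin 2) ℤ} (hX : IsInt X x)
    (hY : IsInt Y y) : IsInt (X * Y) (x * y) :=
  fun i j => coe_mul_int hX hY i j

theorem IsInt.eq {X Y : GL (Fin 2) ℝ} {x y : Matrix (Fin 2) (Fin 2) ℤ} (hX : IsInt X x)
    (hY : IsInt Y y) (e : x = y) : X = Y := by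
  subst e
  exact gl_ext ((hX 0 0).trans (hY 0 0).symm) ((hX 0 1).trans (hY 0 1).symm)
    ((hX 1 0).trans (hY 1 0).symm) ((hX 1 1).trans (hY 1 1).symm)

theorem IsInt.inj {X Y : GL (Fin 2) ℝ} {x y : Matrix (Fin 2) (Fin 2) ℤ} (hX : IsInt X x)
    (hY : IsInt Y y) (e : X = Y) : x = y := by
  subst e
  ext i j
  have := (hX i j).symm.trans (hY i j)
  exact_mod_cast this

theorem isInt_heckeDiag {l : ℕ} (hl : l ≠ 0) :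
    IsInt (heckeDiagMatrix l) !![(l : ℤ), 0; 0, 1] := by
  intro i j
  rw [val_heckeDiagMatrix hl]
  fin_cases i <;> fin_cases j <;> simp

theorem isInt_heckeMatrix {l : ℕ} (hl : l ≠ 0) (α : ℕ) :
    IsInt (heckeMatrix l α) !![1, (α : ℤ); 0, (l : ℤ)] := by
  intro i j
  rw [val_heckeMatrix hl]
  fin_cases i <;> fin_cases j <;> simp

/-! ## The matrices `zP`, `zM` -/

/-- `τ * [[l,0],[0,1]] * τ⁻¹`. -/
noncomputable def zP (τ : SL(2, ℤ)) (l : ℕ) : GL (Fin 2) ℝ :=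
  mapGL ℝ τ * heckeDiagMatrix l * mapGL ℝ τ⁻¹

/-- `τ * [[1,α],[0,l]] * τ⁻¹`. -/
noncomputable def zM (τ : SL(2, ℤ)) (l α : ℕ) : GL (Fin 2) ℝ :=
  mapGL ℝ τ * heckeMatrix l α * mapGL ℝ τ⁻¹

variable {M : ℕ} {l : ℕ}

theorem isInt_zP (τ : SL(2, ℤ)) (hl : l ≠ 0) :
    IsInt (zP τ l) ((τ : Matrix (Fin 2) (Fin 2) ℤ) * !![(l : ℤ), 0; 0, 1] *
      ((τ⁻¹ : SL(2, ℤ)) : Matrix (Fin 2) (Fin 2) ℤ)) :=
  ((isInt_mapGL τ).mul (isInt_heckeDiag hl)).mul (isInt_mapGL τ⁻¹)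

theorem isInt_zM (τ : SL(2, ℤ)) (hl : l ≠ 0) (α : ℕ) :
    IsInt (zM τ l α) ((τ : Matrix (Fin 2) (Fin 2) ℤ) * !![1, (α : ℤ); 0, (l : ℤ)] *
      ((τ⁻¹ : SL(2, ℤ)) : Matrix (Fin 2) (Fin 2) ℤ)) :=
  ((isInt_mapGL τ).mul (isInt_heckeMatrix hl α)).mul (isInt_mapGL τ⁻¹)

theorem isNormRep_of_isInt {X : GL (Fin 2) ℝ} {x : Matrix (Fin 2) (Fin 2) ℤ} (hX : IsInt X x)
    (h1 : (M : ℤ) ∣ x 1 0) (h2 : (M : ℤ) ∣ x 0 0 - 1) : IsNormRep M X := by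
  refine ⟨x 0 0, x 0 1, x 1 0, x 1 1, h1, h2, ?_⟩
  ext i j
  fin_cases i <;> fin_cases j <;> simp [hX _ _]

theorem isNormRep_zP (τ : SL(2, ℤ)) (hl : l ≠ 0) (hM : (M : ℤ) ∣ (l : ℤ) - 1) :
    IsNormRep M (zP τ l) := by
  refine isNormRep_of_isInt (isInt_zP τ hl) ?_ ?_
  · rw [conj_diag]
    simp only [Matrix.of_apply, Matrix.cons_val', Matrix.cons_val_zero, Matrix.cons_val_one,
      Matrix.cons_val_fin_one]
    exact Dvd.dvd.mul_right hM _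
  · rw [conj_diag]
    simp only [Matrix.of_apply, Matrix.cons_val', Matrix.cons_val_zero, Matrix.cons_val_one,
      Matrix.cons_val_fin_one]
    rw [add_sub_cancel_left]
    exact Dvd.dvd.mul_right hM _

theorem isNormRep_zM (τ : SL(2, ℤ)) (hl : l ≠ 0) (hM : (M : ℤ) ∣ (l : ℤ) - 1) {α : ℕ}
    (hα : M ∣ α) : IsNormRep M (zM τ l α) := by
  have hα' : (M : ℤ) ∣ (α : ℤ) := by exact_mod_cast hα
  refine isNormRep_of_isInt (isInt_zM τ hl α) ?_ ?_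
  · rw [conj_upper]
    simp only [Matrix.of_apply, Matrix.cons_val', Matrix.cons_val_zero, Matrix.cons_val_one,
      Matrix.cons_val_fin_one]
    exact dvd_sub (Dvd.dvd.neg_right (Dvd.dvd.mul_right hα' _)) (Dvd.dvd.mul_right hM _)
  · rw [conj_upper]
    simp only [Matrix.of_apply, Matrix.cons_val', Matrix.cons_val_zero, Matrix.cons_val_one,
      Matrix.cons_val_fin_one]
    have : (1 : ℤ) - (α : ℤ) * (τ 0 0 * τ 1 0) - ((l : ℤ) - 1) * (τ 0 1 * τ 1 0) - 1 =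
        -((α : ℤ) * (τ 0 0 * τ 1 0)) - ((l : ℤ) - 1) * (τ 0 1 * τ 1 0) := by ring
    rw [this]
    exact dvd_sub (Dvd.dvd.neg_right (Dvd.dvd.mul_right hα' _)) (Dvd.dvd.mul_right hM _)

theorem mapGL_uni (τ : SL(2, ℤ)) (h : ℤ) :
    mapGL ℝ (uni τ h) = mapGL ℝ τ * mapGL ℝ (tz h) * mapGL ℝ τ⁻¹ := by
  unfold uni
  rw [map_mul, map_mul]

theorem mapGL_inv_mul (τ : SL(2, ℤ)) : mapGL ℝ τ⁻¹ * mapGL ℝ τ = 1 := by
  rw [← map_mul, inv_mul_cancel, map_one]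

theorem heckeDiag_mul_tz (hl : l ≠ 0) (h : ℤ) :
    heckeDiagMatrix l * mapGL ℝ (tz h) = mapGL ℝ (tz ((l : ℤ) * h)) * heckeDiagMatrix l :=
  ((isInt_heckeDiag hl).mul (isInt_mapGL _)).eq ((isInt_mapGL _).mul (isInt_heckeDiag hl))
    (diag_mul_tz _ _)

theorem heckeMatrix_mul_tz (hl : l ≠ 0) (α : ℕ) (h : ℤ) :
    heckeMatrix l α * mapGL ℝ (tz ((l : ℤ) * h)) = mapGL ℝ (tz h) * heckeMatrix l α :=
  ((isInt_heckeMatrix hl α).mul (isInt_mapGL _)).eq ((isInt_mapGL _).mul (isInt_heckeMatrix hl α))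
    (upper_mul_tz _ _ _)

/-- `zP * γ = γ ^ l * zP`. -/
theorem zP_mul_uni (τ : SL(2, ℤ)) (hl : l ≠ 0) (h : ℤ) :
    zP τ l * mapGL ℝ (uni τ h) = mapGL ℝ (uni τ ((l : ℤ) * h)) * zP τ l := by
  unfold zP
  rw [mapGL_uni, mapGL_uni]
  calc mapGL ℝ τ * heckeDiagMatrix l * mapGL ℝ τ⁻¹ * (mapGL ℝ τ * mapGL ℝ (tz h) * mapGL ℝ τ⁻¹)
      = mapGL ℝ τ * (heckeDiagMatrix l * ((mapGL ℝ τ⁻¹ * mapGL ℝ τ) * mapGL ℝ (tz h))) *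
          mapGL ℝ τ⁻¹ := by simp only [mul_assoc]
    _ = mapGL ℝ τ * (heckeDiagMatrix l * mapGL ℝ (tz h)) * mapGL ℝ τ⁻¹ := by
        rw [mapGL_inv_mul, one_mul]
    _ = mapGL ℝ τ * (mapGL ℝ (tz ((l : ℤ) * h)) * heckeDiagMatrix l) * mapGL ℝ τ⁻¹ := by
        rw [heckeDiag_mul_tz hl]
    _ = mapGL ℝ τ * (mapGL ℝ (tz ((l : ℤ) * h)) * ((mapGL ℝ τ⁻¹ * mapGL ℝ τ) *
          heckeDiagMatrix l)) * mapGL ℝ τ⁻¹ := by rw [mapGL_inv_mul, one_mul]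
    _ = mapGL ℝ τ * mapGL ℝ (tz ((l : ℤ) * h)) * mapGL ℝ τ⁻¹ *
          (mapGL ℝ τ * heckeDiagMatrix l * mapGL ℝ τ⁻¹) := by simp only [mul_assoc]

/-- `zM * γ ^ l = γ * zM`. -/
theorem zM_mul_uni (τ : SL(2, ℤ)) (hl : l ≠ 0) (α : ℕ) (h : ℤ) :
    zM τ l α * mapGL ℝ (uni τ ((l : ℤ) * h)) = mapGL ℝ (uni τ h) * zM τ l α := by
  unfold zM
  rw [mapGL_uni, mapGL_uni]
  calc mapGL ℝ τ * heckeMatrix l α * mapGL ℝ τ⁻¹ *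
        (mapGL ℝ τ * mapGL ℝ (tz ((l : ℤ) * h)) * mapGL ℝ τ⁻¹)
      = mapGL ℝ τ * (heckeMatrix l α * ((mapGL ℝ τ⁻¹ * mapGL ℝ τ) *
          mapGL ℝ (tz ((l : ℤ) * h)))) * mapGL ℝ τ⁻¹ := by simp only [mul_assoc]
    _ = mapGL ℝ τ * (heckeMatrix l α * mapGL ℝ (tz ((l : ℤ) * h))) * mapGL ℝ τ⁻¹ := by
        rw [mapGL_inv_mul, one_mul]
    _ = mapGL ℝ τ * (mapGL ℝ (tz h) * heckeMatrix l α) * mapGL ℝ τ⁻¹ := by
        rw [heckeMatrix_mul_tz hl]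
    _ = mapGL ℝ τ * (mapGL ℝ (tz h) * ((mapGL ℝ τ⁻¹ * mapGL ℝ τ) *
          heckeMatrix l α)) * mapGL ℝ τ⁻¹ := by rw [mapGL_inv_mul, one_mul]
    _ = mapGL ℝ τ * mapGL ℝ (tz h) * mapGL ℝ τ⁻¹ *
          (mapGL ℝ τ * heckeMatrix l α * mapGL ℝ τ⁻¹) := by simp only [mul_assoc]

/-- If `zM * γ = c * zM` with `c ∈ SL(2, ℤ)`, then `l ∣ h`. -/
theorem dvd_of_zM_mul_uni (τ : SL(2, ℤ)) (hl : l ≠ 0) (α : ℕ) (h : ℤ) (c : SL(2, ℤ))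
    (e : zM τ l α * mapGL ℝ (uni τ h) = mapGL ℝ c * zM τ l α) : (l : ℤ) ∣ h := by
  -- `heckeMatrix * tz h = (τ⁻¹ c τ) * heckeMatrix`
  have e2 : heckeMatrix l α * mapGL ℝ (tz h) = mapGL ℝ (τ⁻¹ * c * τ) * heckeMatrix l α := by
    unfold zM at e
    rw [mapGL_uni] at e
    have h1 : mapGL ℝ τ * heckeMatrix l α * mapGL ℝ τ⁻¹ *
        (mapGL ℝ τ * mapGL ℝ (tz h) * mapGL ℝ τ⁻¹) =
        mapGL ℝ τ * (heckeMatrix l α * mapGL ℝ (tz h)) * mapGL ℝ τ⁻¹ := by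
      calc mapGL ℝ τ * heckeMatrix l α * mapGL ℝ τ⁻¹ *
            (mapGL ℝ τ * mapGL ℝ (tz h) * mapGL ℝ τ⁻¹)
          = mapGL ℝ τ * (heckeMatrix l α * ((mapGL ℝ τ⁻¹ * mapGL ℝ τ) * mapGL ℝ (tz h))) *
              mapGL ℝ τ⁻¹ := by simp only [mul_assoc]
        _ = _ := by rw [mapGL_inv_mul, one_mul]
    rw [h1] at e
    have h2 : mapGL ℝ τ⁻¹ * (mapGL ℝ τ * (heckeMatrix l α * mapGL ℝ (tz h)) * mapGL ℝ τ⁻¹) *
        mapGL ℝ τ = mapGL ℝ τ⁻¹ * (mapGL ℝ c * (mapGL ℝ τ * heckeMatrix l α * mapGL ℝ τ⁻¹)) *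
        mapGL ℝ τ := by rw [e]
    have h3 : mapGL ℝ τ⁻¹ * (mapGL ℝ τ * (heckeMatrix l α * mapGL ℝ (tz h)) * mapGL ℝ τ⁻¹) *
        mapGL ℝ τ = heckeMatrix l α * mapGL ℝ (tz h) := by
      calc mapGL ℝ τ⁻¹ * (mapGL ℝ τ * (heckeMatrix l α * mapGL ℝ (tz h)) * mapGL ℝ τ⁻¹) *
            mapGL ℝ τ
          = (mapGL ℝ τ⁻¹ * mapGL ℝ τ) * (heckeMatrix l α * mapGL ℝ (tz h)) *
              (mapGL ℝ τ⁻¹ * mapGL ℝ τ) := by simp only [mul_assoc]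
        _ = _ := by rw [mapGL_inv_mul, one_mul, mul_one]
    have h4 : mapGL ℝ τ⁻¹ * (mapGL ℝ c * (mapGL ℝ τ * heckeMatrix l α * mapGL ℝ τ⁻¹)) *
        mapGL ℝ τ = mapGL ℝ (τ⁻¹ * c * τ) * heckeMatrix l α := by
      rw [map_mul, map_mul]
      calc mapGL ℝ τ⁻¹ * (mapGL ℝ c * (mapGL ℝ τ * heckeMatrix l α * mapGL ℝ τ⁻¹)) * mapGL ℝ τ
          = mapGL ℝ τ⁻¹ * mapGL ℝ c * mapGL ℝ τ * heckeMatrix l α *
              (mapGL ℝ τ⁻¹ * mapGL ℝ τ) := by simp only [mul_assoc]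
        _ = _ := by rw [mapGL_inv_mul, mul_one]
    rw [h3, h4] at h2
    exact h2
  have e3 := ((isInt_heckeMatrix hl α).mul (isInt_mapGL (tz h))).inj
    ((isInt_mapGL (τ⁻¹ * c * τ)).mul (isInt_heckeMatrix hl α)) e2
  exact dvd_of_upper_mul_tz e3

/-! ## The dichotomy -/

variable {K : Subgroup SL(2, ℤ)}

theorem coprime_of_dvd_sub_one (hl : l.Prime) (hM : (M : ℤ) ∣ (l : ℤ) - 1) : Nat.Coprime l M := by
  rw [Nat.coprime_comm, Nat.Coprime, ← Nat.dvd_one]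
  have h1 : ((Nat.gcd M l : ℕ) : ℤ) ∣ (l : ℤ) - 1 :=
    dvd_trans (by exact_mod_cast Nat.gcd_dvd_left M l) hM
  have h2 : ((Nat.gcd M l : ℕ) : ℤ) ∣ (l : ℤ) := by exact_mod_cast Nat.gcd_dvd_right M l
  have h3 : ((Nat.gcd M l : ℕ) : ℤ) ∣ 1 := by
    have := dvd_sub h2 h1
    rwa [sub_sub_cancel] at this
  exact_mod_cast h3

theorem not_dvd_of_dvd_sub_one (hl : l.Prime) (hM : (M : ℤ) ∣ (l : ℤ) - 1) : ¬ l ∣ M :=
  (Nat.Prime.coprime_iff_not_dvd hl).mp (coprime_of_dvd_sub_one hl hM)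

/-- From `X * τ = g₀ * B` to `X = (g₀ τ⁻¹) * (τ B τ⁻¹)` with `g₀ τ⁻¹ ∈ K`. -/
theorem exists_factor (hK : IsMid M K) (τ g₀ : SL(2, ℤ)) {X B : GL (Fin 2) ℝ}
    (hX : IsNormRep M X) (hZ : IsNormRep M (mapGL ℝ τ * B * mapGL ℝ τ⁻¹))
    (e : X * mapGL ℝ τ = mapGL ℝ g₀ * B) :
    ∃ k : K, X = ιK K k * (mapGL ℝ τ * B * mapGL ℝ τ⁻¹) := by
  have hτ : mapGL ℝ τ * mapGL ℝ τ⁻¹ = 1 := by rw [← map_mul, mul_inv_cancel, map_one]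
  have e1 : X = mapGL ℝ (g₀ * τ⁻¹) * (mapGL ℝ τ * B * mapGL ℝ τ⁻¹) := by
    rw [map_mul]
    calc X = X * (mapGL ℝ τ * mapGL ℝ τ⁻¹) := by rw [hτ, mul_one]
      _ = (X * mapGL ℝ τ) * mapGL ℝ τ⁻¹ := by rw [mul_assoc]
      _ = mapGL ℝ g₀ * B * mapGL ℝ τ⁻¹ := by rw [e]
      _ = mapGL ℝ g₀ * ((mapGL ℝ τ⁻¹ * mapGL ℝ τ) * B) * mapGL ℝ τ⁻¹ := by
          rw [mapGL_inv_mul, one_mul]
      _ = mapGL ℝ g₀ * mapGL ℝ τ⁻¹ * (mapGL ℝ τ * B * mapGL ℝ τ⁻¹) := by simp only [mul_assoc]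
  have e2 : X * ιN M 1 = mapGL ℝ (g₀ * τ⁻¹) * (mapGL ℝ τ * B * mapGL ℝ τ⁻¹) := by
    rw [map_one, mul_one]
    exact e1
  obtain ⟨hk, hd⟩ := normRep_coc hX hZ e2
  rw [map_one] at hd
  exact ⟨⟨g₀ * τ⁻¹, hK.mem_of_dUnit_eq_one hd⟩, e1⟩

/-- **Dichotomy.**  Every integral normalised matrix of determinant `l` is `k * zP` or
`k * zM α`, `k ∈ K`, `M ∣ α`. -/
theorem rep_dichotomy (hl : l.Prime) (hM : (M : ℤ) ∣ (l : ℤ) - 1) (hK : IsMid M K)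
    (τ : SL(2, ℤ)) {X : GL (Fin 2) ℝ} (hX : IsIntRep M l X) :
    (∃ k : K, X = ιK K k * zP τ l) ∨
      ∃ (α : ℕ) (k : K), M ∣ α ∧ X = ιK K k * zM τ l α := by
  have hl0 : l ≠ 0 := hl.ne_zero
  have hXn : IsNormRep M X := hX.isNormRep
  obtain ⟨x, -, -, hdet, hval⟩ := hX
  have hXi : IsInt X x := hval
  have hY : (x * (τ : Matrix (Fin 2) (Fin 2) ℤ)).det = (l : ℤ) := by
    rw [Matrix.det_mul, hdet, τ.det_coe, mul_one]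
  by_cases hF : (l : ℤ) ∣ (x * (τ : Matrix (Fin 2) (Fin 2) ℤ)) 0 0 ∧
      (l : ℤ) ∣ (x * (τ : Matrix (Fin 2) (Fin 2) ℤ)) 1 0
  · left
    obtain ⟨g₀, hg₀⟩ := hnf_diag (by exact_mod_cast hl0) _ hY hF.1 hF.2
    have e : X * mapGL ℝ τ = mapGL ℝ g₀ * heckeDiagMatrix l :=
      (hXi.mul (isInt_mapGL τ)).eq ((isInt_mapGL g₀).mul (isInt_heckeDiag hl0)) hg₀
    exact exists_factor hK τ g₀ hXn (isNormRep_zP τ hl0 hM) e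
  · right
    obtain ⟨α, g₀, hα, hg₀⟩ := hnf_upper hl (coprime_of_dvd_sub_one hl hM) _ hY hF
    have e : X * mapGL ℝ τ = mapGL ℝ g₀ * heckeMatrix l α :=
      (hXi.mul (isInt_mapGL τ)).eq ((isInt_mapGL g₀).mul (isInt_heckeMatrix hl0 α)) hg₀
    obtain ⟨k, hk⟩ := exists_factor hK τ g₀ hXn (isNormRep_zM τ hl0 hM hα) e
    exact ⟨α, k, hα, hk⟩

end Fermat.Agent.S59.TW.H653.Bdry
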