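import Mathlib
import Fermat.Agent.S59.TW.H653.Bdry.Core

/-!
# S59 / TW-HECKE (helper653), block BDRY: the orbits of a unipotent element on the cosets of `T_l`

`l` prime, `M ∣ l - 1`, `K` between `Γ₁(M)` and `Γ₀(M)`, a coset system `ρ : I → GL(2, ℝ)` of `K`
with `l + 1` integral normalised representatives of determinant `l`, `g ∈ K` with
`g = uni τ h = τ * tz h * τ⁻¹`, `l ∤ h`.  Then `g` has exactly one fixed point on `I`, with cocycle
conjugate in `K` to `g ^ l`, and the other `l` points form one cycle, with cycle product conjugate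
in `K` to `g`.  Hence

`transfer_uni : h.transfer φ g = (l + 1) • φ g` for every homomorphism `φ : K → A`.
-/

set_option autoImplicit false

namespace Fermat.Agent.S59.TW.H653.Bdry

open CongruenceSubgroup Matrix.SpecialLinearGroup ModularCurve.Period ModularForm
open Fermat.Agent.S29.H642 Fermat.Agent.S41.H761 Fermat.Agent.S59.TW.H653
open P2MW.S_ModularForm_heckeT_slash_eq_self_of_mem_Gamma0.ModularForm.HeckeSlashInvariance
open scoped MatrixGroups

variable {M l : ℕ} {K : Subgroup SL(2, ℤ)} {I : Type*} {ρ : I → GL (Fin 2) ℝ}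
variable {A : Type*} [AddCommGroup A]

theorem ιK_pow (g : K) (n : ℕ) : ιK K (g ^ n) = mapGL ℝ ((g : SL(2, ℤ)) ^ n) := by
  rw [ιK_apply, Subgroup.coe_pow]

/-- A point of type `zP` is fixed, with cocycle `k * g ^ l * k⁻¹`. -/
theorem act_coc_of_zP (hsys : IsCosetSystem (ιK K) (ιK K) ρ) (hl : l ≠ 0) (τ : SL(2, ℤ)) (h : ℤ)
    (g : K) (hg : (g : SL(2, ℤ)) = uni τ h) (x : I) (k : K) (e : ρ x = ιK K k * zP τ l) :
    hsys.act x g = x ∧ hsys.coc x g = k * g ^ l * k⁻¹ := by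
  apply hsys.unique
  have h1 : ιK K g = mapGL ℝ (uni τ h) := by rw [ιK_apply, hg]
  have h2 : ιK K (g ^ l) = mapGL ℝ (uni τ ((l : ℤ) * h)) := by
    rw [ιK_pow, hg, uni_pow]
  rw [map_mul, map_mul, map_inv, h2, h1]
  nth_rewrite 1 [e]
  rw [mul_assoc, zP_mul_uni τ hl h, e]
  simp only [mul_assoc, inv_mul_cancel_left]

/-- A point of type `zM` is fixed by `g ^ l`, with cocycle `k * g * k⁻¹`. -/
theorem act_coc_of_zM (hsys : IsCosetSystem (ιK K) (ιK K) ρ) (hl : l ≠ 0) (τ : SL(2, ℤ)) (h : ℤ)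
    (g : K) (hg : (g : SL(2, ℤ)) = uni τ h) (x : I) (α : ℕ) (k : K)
    (e : ρ x = ιK K k * zM τ l α) :
    hsys.act x (g ^ l) = x ∧ hsys.coc x (g ^ l) = k * g * k⁻¹ := by
  apply hsys.unique
  have h1 : ιK K g = mapGL ℝ (uni τ h) := by rw [ιK_apply, hg]
  have h2 : ιK K (g ^ l) = mapGL ℝ (uni τ ((l : ℤ) * h)) := by
    rw [ιK_pow, hg, uni_pow]
  rw [map_mul, map_mul, map_inv, h2, h1]
  nth_rewrite 1 [e]
  rw [mul_assoc, zM_mul_uni τ hl α h, e]
  simp only [mul_assoc, inv_mul_cancel_left]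

/-- A point of type `zM` is not fixed by `g`, if `l ∤ h`. -/
theorem act_ne_of_zM (hsys : IsCosetSystem (ιK K) (ιK K) ρ) (hl : l ≠ 0) (τ : SL(2, ℤ)) (h : ℤ)
    (hh : ¬ (l : ℤ) ∣ h) (g : K) (hg : (g : SL(2, ℤ)) = uni τ h) (x : I) (α : ℕ) (k : K)
    (e : ρ x = ιK K k * zM τ l α) : hsys.act x g ≠ x := by
  intro hfix
  apply hh
  have hs := hsys.spec x g
  rw [hfix, e] at hs
  have h1 : ιK K g = mapGL ℝ (uni τ h) := by rw [ιK_apply, hg]
  rw [h1] at hs
  -- `zM * γ = (k⁻¹ c k) * zM`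
  have h2 : zM τ l α * mapGL ℝ (uni τ h) =
      mapGL ℝ (((k⁻¹ * hsys.coc x g * k : K) : SL(2, ℤ))) * zM τ l α := by
    have h3 : mapGL ℝ (((k⁻¹ * hsys.coc x g * k : K) : SL(2, ℤ))) =
        (ιK K k)⁻¹ * ιK K (hsys.coc x g) * ιK K k := by
      rw [← map_inv, ← map_mul, ← map_mul]
      rfl
    rw [h3]
    calc zM τ l α * mapGL ℝ (uni τ h)
        = (ιK K k)⁻¹ * (ιK K k * zM τ l α * mapGL ℝ (uni τ h)) := by
          simp only [mul_assoc, inv_mul_cancel_left]
      _ = (ιK K k)⁻¹ * (ιK K (hsys.coc x g) * (ιK K k * zM τ l α)) := by rw [hs]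
      _ = _ := by simp only [mul_assoc]
  exact dvd_of_zM_mul_uni τ hl α h _ h2

/-- Two points of type `zP` coincide. -/
theorem eq_of_zP (hsys : IsCosetSystem (ιK K) (ιK K) ρ) (τ : SL(2, ℤ)) (x y : I) (k k' : K)
    (e : ρ x = ιK K k * zP τ l) (e' : ρ y = ιK K k' * zP τ l) : x = y := by
  apply hsys.eq_of_mul x y (k * k'⁻¹)
  rw [e, e', map_mul, map_inv]
  simp only [mul_assoc, inv_mul_cancel_left]

section Count

variable [Fintype I]

/-- **The transfer at a unipotent element.** -/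
theorem transfer_uni (hl : l.Prime) (hM : (M : ℤ) ∣ (l : ℤ) - 1) (hK : IsMid M K)
    (hsys : IsCosetSystem (ιK K) (ιK K) ρ) (hcard : Fintype.card I = l + 1)
    (hρ : ∀ i, IsIntRep M l (ρ i)) (τ : SL(2, ℤ)) (h : ℤ) (hh : ¬ (l : ℤ) ∣ h) (g : K)
    (hg : (g : SL(2, ℤ)) = uni τ h) (φ : Additive K →+ A) :
    hsys.transfer φ (Additive.ofMul g) = (l + 1) • φ (Additive.ofMul g) := by
  classical
  have hl0 : l ≠ 0 := hl.ne_zero
  haveI : Fact l.Prime := ⟨hl⟩
  set σ : Equiv.Perm I := hsys.actEquiv g with hσ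
  have hσact : ∀ x, σ x = hsys.act x g := fun x => rfl
  -- the two types of points
  have hdich := fun x => rep_dichotomy hl hM hK τ (hρ x)
  have hP : ∀ x, (∃ k : K, ρ x = ιK K k * zP τ l) →
      σ x = x ∧ φ (Additive.ofMul (hsys.coc x g)) = l • φ (Additive.ofMul g) := by
    rintro x ⟨k, e⟩
    obtain ⟨h1, h2⟩ := act_coc_of_zP hsys hl0 τ h g hg x k e
    refine ⟨h1, ?_⟩
    rw [h2, ofMul_mul, ofMul_mul, ofMul_inv, ofMul_pow, map_add, map_add, map_neg, map_nsmul]
    abel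
  have hC : ∀ x, (¬ ∃ k : K, ρ x = ιK K k * zP τ l) →
      σ x ≠ x ∧ (⇑σ)^[l] x = x ∧ φ (Additive.ofMul (hsys.coc x (g ^ l))) =
        φ (Additive.ofMul g) := by
    intro x hx
    rcases hdich x with h1 | ⟨α, k, -, e⟩
    · exact absurd h1 hx
    · obtain ⟨h1, h2⟩ := act_coc_of_zM hsys hl0 τ h g hg x α k e
      refine ⟨act_ne_of_zM hsys hl0 τ h hh g hg x α k e, ?_, ?_⟩
      · rw [← act_pow]
        exact h1
      · rw [h2, ofMul_mul, ofMul_mul, ofMul_inv, map_add, map_add, map_neg]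
        abel
  -- `σ ^ l = 1`
  have hpow : σ ^ l ^ 1 = 1 := by
    rw [pow_one]
    ext x
    rw [← Equiv.Perm.iterate_eq_pow, Equiv.Perm.coe_one, id]
    by_cases hx : ∃ k : K, ρ x = ιK K k * zP τ l
    · exact Function.iterate_fixed (hP x hx).1 l
    · exact (hC x hx).2.1
  -- existence of a fixed point
  have hmod := Equiv.Perm.card_compl_support_modEq hpow
  rw [hcard] at hmod
  have hne : (σ.supportᶜ : Finset I).Nonempty := by
    rw [Finset.nonempty_iff_ne_empty]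
    intro h0
    rw [h0, Finset.card_empty] at hmod
    have h1 : l ∣ l + 1 := (Nat.modEq_zero_iff_dvd).mp hmod.symm
    have h2 : l ∣ 1 := (Nat.dvd_add_right (dvd_refl l)).mp h1
    exact hl.one_lt.ne' (Nat.dvd_one.mp h2)
  obtain ⟨x₀, hx₀⟩ := hne
  have hx₀fix : σ x₀ = x₀ := by
    rw [Finset.mem_compl, Equiv.Perm.mem_support, not_not] at hx₀
    exact hx₀
  have hx₀P : ∃ k : K, ρ x₀ = ιK K k * zP τ l := by
    by_contra hx
    exact (hC x₀ hx).1 hx₀fix
  have huniq : ∀ x, x ≠ x₀ → ¬ ∃ k : K, ρ x = ιK K k * zP τ l := by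
    rintro x hx ⟨k, e⟩
    obtain ⟨k', e'⟩ := hx₀P
    exact hx (eq_of_zP hsys τ x x₀ k k' e e')
  -- another point
  obtain ⟨x₁, hx₁⟩ : ∃ x₁ : I, x₁ ≠ x₀ := by
    by_contra hcon
    push_neg at hcon
    have : Fintype.card I ≤ 1 := Fintype.card_le_one_iff.mpr fun a b => by rw [hcon a, hcon b]
    rw [hcard] at this
    have := hl.one_lt
    omega
  have hx₁C := hC x₁ (huniq x₁ hx₁)
  have hper : Function.minimalPeriod (⇑σ) x₁ = l :=
    Function.minimalPeriod_eq_prime hx₁C.2.1 hx₁C.1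
  -- the orbit of `x₁` is the complement of `x₀`
  have horb : (Finset.range l).image (fun k => (⇑σ)^[k] x₁) = Finset.univ.erase x₀ := by
    apply Finset.eq_of_subset_of_card_le
    · intro y hy
      obtain ⟨k, -, rfl⟩ := Finset.mem_image.mp hy
      refine Finset.mem_erase.mpr ⟨?_, Finset.mem_univ _⟩
      intro hk
      apply hx₁
      have h1 : (⇑σ)^[k] x₀ = x₀ := Function.iterate_fixed hx₀fix k
      have h2 : (⇑σ)^[k] x₁ = (⇑σ)^[k] x₀ := by rw [hk, h1]
      exact (Function.Injective.iterate σ.injective k) h2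
    · rw [Finset.card_erase_of_mem (Finset.mem_univ _), Finset.card_univ, hcard,
        Nat.add_sub_cancel, Finset.card_image_of_injOn, Finset.card_range]
      intro a ha b hb hab
      rw [Finset.coe_range, Set.mem_Iio] at ha hb
      rw [← hper] at ha hb
      exact (Function.iterate_eq_iterate_iff_of_lt_minimalPeriod ha hb).mp hab
  -- the sum
  rw [hsys.transfer_apply, ← Finset.add_sum_erase Finset.univ _ (Finset.mem_univ x₀), ← horb,
    Finset.sum_image, ← map_coc_pow hsys φ x₁ g l, hx₁C.2.2, (hP x₀ hx₀P).2, add_smul, one_smul]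
  intro a ha b hb hab
  rw [Finset.coe_range, Set.mem_Iio] at ha hb
  rw [← hper] at ha hb
  exact (Function.iterate_eq_iterate_iff_of_lt_minimalPeriod ha hb).mp hab

end Count

end Fermat.Agent.S59.TW.H653.Bdry
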