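import Mathlib
import Fermat.Agent.S59.TW.H653.Bdry.Orbit
import Fermat.Agent.S59.TW.H653.CuspKer

/-!
# S59 / TW-HECKE (helper653), block BDRY: the boundary is Eisenstein

`K` between `Γ₁(M)` and `Γ₀(M)`, `l` a prime with `l ≡ 1 mod M`, `φ : Hom(K, A)`, ANY `A`:

* `TK_apply_of_trace_eq_two` : `(T_l φ)(γ) = (l + 1) • φ(γ)` for every `γ ∈ K` of trace `2`;
* `isCuspidalK_TK_sub` : if `A` is torsion-free, `T_l φ - (l + 1) • φ` is cuspidal;
* `isCuspidalK_of_surjOn` : a subgroup `V ⊆ Hom(K, A)` on which `T_l - (l + 1)` is onto consists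
  of cuspidal classes ("the non-Eisenstein part of `Hom(K, A)` is cuspidal");
* versions for `heckeTransfer` (`Γ₀(M)`) and for `H587.heckeKer` (block M-FREE).
-/

set_option autoImplicit false

namespace Fermat.Agent.S59.TW.H653.Bdry

open CongruenceSubgroup Matrix.SpecialLinearGroup ModularCurve.Period ModularForm
open Fermat.Agent.S29.H642 Fermat.Agent.S41.H761 Fermat.Agent.S59.TW.H653
open Fermat.Agent.S59.MFree Fermat.Agent.S59.MFree.H587 Fermat.Agent.S59.MFree.H941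
open P2MW.S_ModularForm_heckeT_slash_eq_self_of_mem_Gamma0.ModularForm.HeckeSlashInvariance
open scoped MatrixGroups

variable {M l : ℕ} {K : Subgroup SL(2, ℤ)} {A : Type*} [AddCommGroup A]

theorem card_onePoint_zmod (l : ℕ) [NeZero l] : Fintype.card (OnePoint (ZMod l)) = l + 1 := by
  have : Fintype.card (Option (ZMod l)) = l + 1 := by
    rw [Fintype.card_option, ZMod.card]
  exact this

/-- `(T_l φ)(g) = (l + 1) • φ(g)` for `g = τ * tz h * τ⁻¹ ∈ K`, `l ∤ h`. -/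
theorem TK_uni_of_not_dvd (hK : IsMid M K) [Fact l.Prime] (hM : (M : ℤ) ∣ (l : ℤ) - 1)
    (τ : SL(2, ℤ)) (h : ℤ) (hh : ¬ (l : ℤ) ∣ h) (g : K) (hg : (g : SL(2, ℤ)) = uni τ h)
    (φ : Additive K →+ A) :
    TK M K l φ (Additive.ofMul g) = (l + 1) • φ (Additive.ofMul g) := by
  have hl : l.Prime := Fact.out
  have hlM : ¬ l ∣ M := not_dvd_of_dvd_sub_one hl hM
  rw [TK_eq hK hlM]
  exact transfer_uni hl hM hK (repsT_system hK hlM) (card_onePoint_zmod l)
    (fun x => isIntRep_repsT hlM x) τ h hh g hg φ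

/-- `τ * tz (M * h) * τ⁻¹ ∈ Γ₁(M)`. -/
theorem uni_mem_Gamma1 (M : ℕ) (τ : SL(2, ℤ)) (h : ℤ) : uni τ ((M : ℤ) * h) ∈ Gamma1 M := by
  rw [Gamma1_mem]
  have e := coe_uni τ ((M : ℤ) * h)
  have e00 : (uni τ ((M : ℤ) * h)) 0 0 = 1 - (M : ℤ) * h * (τ 0 0 * τ 1 0) := by
    have := congrFun (congrFun e 0) 0
    simpa using this
  have e11 : (uni τ ((M : ℤ) * h)) 1 1 = 1 + (M : ℤ) * h * (τ 0 0 * τ 1 0) := by
    have := congrFun (congrFun e 1) 1
    simpa using this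
  have e10 : (uni τ ((M : ℤ) * h)) 1 0 = -((M : ℤ) * h * (τ 1 0 * τ 1 0)) := by
    have := congrFun (congrFun e 1) 0
    simpa using this
  refine ⟨?_, ?_, ?_⟩
  · rw [e00]
    push_cast
    simp
  · rw [e11]
    push_cast
    simp
  · rw [e10]
    push_cast
    simp

/-- If `τ * tz (l * h) * τ⁻¹ ∈ K` and `l` is prime to `M`, then `τ * tz h * τ⁻¹ ∈ K`. -/
theorem uni_mem_of_mul (hK : IsMid M K) (hlM : Nat.Coprime l M) (τ : SL(2, ℤ)) (h : ℤ)
    (hg : uni τ ((l : ℤ) * h) ∈ K) : uni τ h ∈ K := by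
  obtain ⟨r, s, hrs⟩ : IsCoprime (l : ℤ) (M : ℤ) := Nat.Coprime.isCoprime hlM
  have h1 : uni τ h = uni τ ((l : ℤ) * h) ^ r * uni τ ((M : ℤ) * h) ^ s := by
    rw [uni_zpow, uni_zpow, uni_mul]
    congr 1
    linear_combination (-h) * hrs
  rw [h1]
  exact K.mul_mem (K.zpow_mem hg r) (K.zpow_mem (hK.ge (uni_mem_Gamma1 M τ h)) s)

/-- `(T_l φ)(g) = (l + 1) • φ(g)` for every `g = τ * tz h * τ⁻¹ ∈ K`. -/
theorem TK_uni (hK : IsMid M K) [Fact l.Prime] (hM : (M : ℤ) ∣ (l : ℤ) - 1)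
    (τ : SL(2, ℤ)) (φ : Additive K →+ A) :
    ∀ (n : ℕ) (h : ℤ), h.natAbs = n → ∀ (g : K), (g : SL(2, ℤ)) = uni τ h →
      TK M K l φ (Additive.ofMul g) = (l + 1) • φ (Additive.ofMul g) := by
  have hl : l.Prime := Fact.out
  intro n
  induction n using Nat.strong_induction_on with
  | _ n ih =>
    intro h hn g hg
    by_cases hh : (l : ℤ) ∣ h
    · obtain ⟨h', rfl⟩ := hh
      by_cases h0 : h' = 0
      · subst h0
        have hg1 : g = 1 := by
          apply Subtype.ext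
          rw [hg, mul_zero, uni_zero]
          rfl
        rw [hg1, ofMul_one, map_zero, map_zero, smul_zero]
      · have hδ : uni τ h' ∈ K := by
          apply uni_mem_of_mul hK (coprime_of_dvd_sub_one hl hM) τ h'
          rw [← hg]
          exact g.2
        have hgδ : g = (⟨uni τ h', hδ⟩ : K) ^ l := by
          apply Subtype.ext
          rw [hg, Subgroup.coe_pow, uni_pow]
        have hlt : h'.natAbs < n := by
          rw [← hn, Int.natAbs_mul, Int.natAbs_natCast]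
          have h1 : 0 < h'.natAbs := Int.natAbs_pos.mpr h0
          have h2 := hl.one_lt
          nlinarith
        have key := ih h'.natAbs hlt h' rfl ⟨uni τ h', hδ⟩ rfl
        rw [hgδ, ofMul_pow, map_nsmul, map_nsmul, key, smul_comm]
    · exact TK_uni_of_not_dvd hK hM τ h hh g hg φ

/-- **The boundary is Eisenstein.**  For a prime `l ≡ 1 mod M` and every homomorphism
`φ : K → A`: `(T_l φ)(γ) = (l + 1) • φ(γ)` for every `γ ∈ K` of trace `2`. -/
theorem TK_apply_of_trace_eq_two (hK : IsMid M K) [Fact l.Prime] (hM : (M : ℤ) ∣ (l : ℤ) - 1)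
    (φ : Additive K →+ A) (γ : K)
    (hγ : ((γ : SL(2, ℤ)) : Matrix (Fin 2) (Fin 2) ℤ).trace = 2) :
    TK M K l φ (Additive.ofMul γ) = (l + 1) • φ (Additive.ofMul γ) := by
  obtain ⟨τ, h, e⟩ := exists_conj_tz (γ : SL(2, ℤ)) hγ
  exact TK_uni hK hM τ φ h.natAbs h rfl γ e

/-- The trace of the square of an element of `SL(2, ℤ)` of trace `± 2` is `2`. -/
theorem trace_sq_eq_two (γ : SL(2, ℤ))
    (hγ : (γ : Matrix (Fin 2) (Fin 2) ℤ).trace ^ 2 = 4) :
    ((γ ^ 2 : SL(2, ℤ)) : Matrix (Fin 2) (Fin 2) ℤ).trace = 2 := by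
  have hdet : γ 0 0 * γ 1 1 - γ 0 1 * γ 1 0 = 1 := by
    have := γ.det_coe
    rwa [Matrix.det_fin_two] at this
  rw [Matrix.trace_fin_two] at hγ
  rw [Matrix.SpecialLinearGroup.coe_pow, pow_two, Matrix.trace_fin_two]
  simp only [Matrix.mul_apply, Fin.sum_univ_two]
  linear_combination hγ - 2 * hdet

variable [IsAddTorsionFree A]

/-- **For a prime `l ≡ 1 mod M`, `T_l φ - (l + 1) • φ` is cuspidal**, for every homomorphism
`φ : K → A`, `A` torsion-free. -/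
theorem isCuspidalK_TK_sub (hK : IsMid M K) [Fact l.Prime] (hM : (M : ℤ) ∣ (l : ℤ) - 1)
    (φ : Additive K →+ A) : IsCuspidalK (TK M K l φ - (l + 1) • φ) := by
  have key : ∀ γ : K, ((γ : SL(2, ℤ)) : Matrix (Fin 2) (Fin 2) ℤ).trace = 2 →
      (TK M K l φ - (l + 1) • φ) (Additive.ofMul γ) = 0 := by
    intro γ hγ
    rw [AddMonoidHom.sub_apply, AddMonoidHom.smul_apply, TK_apply_of_trace_eq_two hK hM φ γ hγ,
      sub_self]
  refine ⟨fun γ hγ => ?_, fun γ hγ => ?_⟩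
  · have h2 := key (γ ^ 2) (by rw [Subgroup.coe_pow]; exact trace_sq_eq_two _ hγ)
    rw [ofMul_pow, map_nsmul] at h2
    exact (nsmul_eq_zero_iff_right two_ne_zero).mp h2
  · obtain ⟨n, hn, hn'⟩ := isOfFinOrder_iff_pow_eq_one.mp hγ
    have h1 : n • (TK M K l φ - (l + 1) • φ) (Additive.ofMul γ) = 0 := by
      rw [← map_nsmul, ← ofMul_pow, hn', ofMul_one, map_zero]
    exact (nsmul_eq_zero_iff_right hn.ne').mp h1

/-- **The non-Eisenstein part of `Hom(K, A)` is cuspidal**: if every element of `V` is of the form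
`T_l x - (l + 1) • x`, `l ≡ 1 mod M` prime, then `V` consists of cuspidal classes. -/
theorem isCuspidalK_of_surjOn (hK : IsMid M K) [Fact l.Prime] (hM : (M : ℤ) ∣ (l : ℤ) - 1)
    (V : Set (Additive K →+ A))
    (hV : ∀ y ∈ V, ∃ x : Additive K →+ A, TK M K l x - (l + 1) • x = y) :
    ∀ y ∈ V, IsCuspidalK y := by
  intro y hy
  obtain ⟨x, rfl⟩ := hV y hy
  exact isCuspidalK_TK_sub hK hM x

/-- Version for `Γ₀(M)` and `heckeTransfer`. -/
theorem isCuspidal_heckeTransfer_sub [Fact l.Prime] (hM : (M : ℤ) ∣ (l : ℤ) - 1)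
    (hl : ¬ l ∣ M) (φ : Additive (Gamma0 M) →+ A) :
    Fermat.Agent.S41.Spec.IsCuspidal (heckeTransfer hl φ - (l + 1) • φ) := by
  rw [← TK_Gamma0 hl]
  exact isCuspidalK_TK_sub (isMid_Gamma0 M) hM φ

/-- Version for block M-FREE: `H587.heckeKer`. -/
theorem isCuspidalK_heckeKer_sub {D : Type} [Group D] (κ : Gamma0 M →* D)
    (hΓ1 : ∀ γ : Gamma0 M, ((((γ : SL(2, ℤ)) 1 1 : ℤ)) : ZMod M) = 1 → κ γ = 1)
    [Fact l.Prime] (hM : (M : ℤ) ∣ (l : ℤ) - 1) (hl : ¬ l ∣ M)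
    (φ : Additive (kerSub κ) →+ A) :
    IsCuspidalK (heckeKer hl κ hΓ1 φ - (l + 1) • φ) := by
  rw [heckeKer_eq_TK hl κ hΓ1]
  exact isCuspidalK_TK_sub (isMid_kerSub κ hΓ1) hM φ

end Fermat.Agent.S59.TW.H653.Bdry
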