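import Mathlib
import Fermat.Agent.S59.TW.H653.Bdry.Main

/-!
# S59 / TW-HECKE (helper653), block BDRY: trace `-2`, and the statement for `Γ₀(M)`

* `transfer_of_commute` : the transfer of a coset system at an element commuting with all the
  representatives is `card I • φ`;
* `TK_neg_one` : `(T_l φ)(-1) = (l + 1) • φ(-1)`;
* `TK_apply_of_trace_sq (hK) (hneg : -1 ∈ K)` : `(T_l φ)(γ) = (l + 1) • φ(γ)` for `tr(γ)² = 4`,
  `l ≡ 1 mod M` prime, EVERY abelian group `A` (torsion allowed);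
* `heckeTransfer_apply_of_trace_sq` : the same for `Γ₀(M)` and `heckeTransfer`;
* `bdry_h653` : the boundary statement in the shape frozen by helper59 (`H59.BdryStatement`).
-/

set_option autoImplicit false

namespace Fermat.Agent.S59.TW.H653.Bdry

open CongruenceSubgroup Matrix.SpecialLinearGroup ModularCurve.Period ModularForm
open Fermat.Agent.S29.H642 Fermat.Agent.S41.H761 Fermat.Agent.S59.TW.H653
open P2MW.S_ModularForm_heckeT_slash_eq_self_of_mem_Gamma0.ModularForm.HeckeSlashInvariance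
open scoped MatrixGroups

variable {M l : ℕ} {K : Subgroup SL(2, ℤ)} {A : Type*} [AddCommGroup A]

/-- The transfer at an element which commutes with all the representatives. -/
theorem transfer_of_commute {I : Type*} [Fintype I] {ρ : I → GL (Fin 2) ℝ}
    (hsys : IsCosetSystem (ιK K) (ιK K) ρ) (z : K) (hz : ∀ x, ρ x * ιK K z = ιK K z * ρ x)
    (φ : Additive K →+ A) :
    hsys.transfer φ (Additive.ofMul z) = Fintype.card I • φ (Additive.ofMul z) := by
  rw [IsCosetSystem.transfer_apply]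
  have h : ∀ x, hsys.coc x z = z := fun x => (hsys.unique (hz x)).2
  simp only [h, Finset.sum_const, Finset.card_univ]

theorem mapGL_neg_one_comm (g : GL (Fin 2) ℝ) :
    g * mapGL ℝ (-1 : SL(2, ℤ)) = mapGL ℝ (-1 : SL(2, ℤ)) * g := by
  apply Units.ext
  have e : ((mapGL ℝ (-1 : SL(2, ℤ)) : GL (Fin 2) ℝ) : Matrix (Fin 2) (Fin 2) ℝ) = -1 := by
    ext i j
    fin_cases i <;> fin_cases j <;> simp [mapGL]
  rw [Units.val_mul, Units.val_mul, e, mul_neg, neg_mul, mul_one, one_mul]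

/-- `(T_l φ)(-1) = (l + 1) • φ(-1)`. -/
theorem TK_neg_one (hK : IsMid M K) [Fact l.Prime] (hlM : ¬ l ∣ M)
    (hneg : (-1 : SL(2, ℤ)) ∈ K) (φ : Additive K →+ A) :
    TK M K l φ (Additive.ofMul (⟨-1, hneg⟩ : K)) =
      (l + 1) • φ (Additive.ofMul (⟨-1, hneg⟩ : K)) := by
  rw [TK_eq hK hlM, transfer_of_commute (repsT_system hK hlM) ⟨-1, hneg⟩
    (fun x => mapGL_neg_one_comm _) φ, card_onePoint_zmod]

/-- **The boundary is Eisenstein, trace `± 2`.**  For a prime `l ≡ 1 mod M` and every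
homomorphism `φ : K → A` (`-1 ∈ K`): `(T_l φ)(γ) = (l + 1) • φ(γ)` if `tr(γ)² = 4`. -/
theorem TK_apply_of_trace_sq (hK : IsMid M K) [Fact l.Prime] (hM : (M : ℤ) ∣ (l : ℤ) - 1)
    (hneg : (-1 : SL(2, ℤ)) ∈ K) (φ : Additive K →+ A) (γ : K)
    (hγ : ((γ : SL(2, ℤ)) : Matrix (Fin 2) (Fin 2) ℤ).trace ^ 2 = 4) :
    TK M K l φ (Additive.ofMul γ) = (l + 1) • φ (Additive.ofMul γ) := by
  have hl : l.Prime := Fact.out
  have hlM : ¬ l ∣ M := not_dvd_of_dvd_sub_one hl hM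
  have h2 : ((γ : SL(2, ℤ)) : Matrix (Fin 2) (Fin 2) ℤ).trace = 2 ∨
      ((γ : SL(2, ℤ)) : Matrix (Fin 2) (Fin 2) ℤ).trace = -2 := by
    have h : (((γ : SL(2, ℤ)) : Matrix (Fin 2) (Fin 2) ℤ).trace - 2) *
        (((γ : SL(2, ℤ)) : Matrix (Fin 2) (Fin 2) ℤ).trace + 2) = 0 := by
      linear_combination hγ
    rcases mul_eq_zero.mp h with h | h
    · exact Or.inl (by linarith)
    · exact Or.inr (by linarith)
  rcases h2 with h2 | h2
  · exact TK_apply_of_trace_eq_two hK hM φ γ h2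
  · set z : K := ⟨-1, hneg⟩ with hz
    have hzz : z * z = 1 := by
      apply Subtype.ext
      simp [hz]
    have hγ' : (((z * γ : K) : SL(2, ℤ)) : Matrix (Fin 2) (Fin 2) ℤ).trace = 2 := by
      have : ((z * γ : K) : SL(2, ℤ)) = -(γ : SL(2, ℤ)) := by
        simp [hz]
      rw [this, Matrix.SpecialLinearGroup.coe_neg, Matrix.trace_neg, h2]
      norm_num
    have e : γ = z * (z * γ) := by
      rw [← mul_assoc, hzz, one_mul]
    have key := TK_apply_of_trace_eq_two hK hM φ (z * γ) hγ'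
    have keyz := TK_neg_one hK hlM hneg φ
    rw [e, ofMul_mul, map_add, map_add, key, keyz, smul_add]

theorem neg_one_mem_Gamma0 (M : ℕ) : (-1 : SL(2, ℤ)) ∈ Gamma0 M := by
  rw [Gamma0_mem]
  simp

/-- Version for `Γ₀(M)` and `heckeTransfer`. -/
theorem heckeTransfer_apply_of_trace_sq [Fact l.Prime] (hl : ¬ l ∣ M)
    (hM : (M : ℤ) ∣ (l : ℤ) - 1) (φ : Additive (Gamma0 M) →+ A) (γ : Gamma0 M)
    (hγ : ((γ : SL(2, ℤ)) : Matrix (Fin 2) (Fin 2) ℤ).trace ^ 2 = 4) :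
    heckeTransfer hl φ (Additive.ofMul γ) = (l + 1) • φ (Additive.ofMul γ) := by
  rw [← TK_Gamma0 hl]
  exact TK_apply_of_trace_sq (isMid_Gamma0 M) hM (neg_one_mem_Gamma0 M) φ γ hγ

/-- **BDRY in the shape frozen by helper59** (`S38.H59.BdryStatement`, VERBATIM body): the boundary
is Eisenstein, for every abelian group `A`. -/
theorem bdry_h653 :
    ∀ (M ℓ : ℕ) [Fact ℓ.Prime] (hℓ : ¬ ℓ ∣ M), M ≠ 0 → ℓ ≠ 2 → ℓ ≡ 1 [MOD M] →
      ∀ (A : Type) [AddCommGroup A] (φ : Additive (Gamma0 M) →+ A) (γ : Gamma0 M),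
        ((γ : SL(2, ℤ)) : Matrix (Fin 2) (Fin 2) ℤ).trace ^ 2 = 4 →
        heckeTransfer hℓ φ (Additive.ofMul γ) = (ℓ + 1) • φ (Additive.ofMul γ) := by
  intro M ℓ _ hℓ _ _ h1 A _ φ γ hγ
  have hM : (M : ℤ) ∣ (ℓ : ℤ) - 1 := by
    have := Nat.modEq_iff_dvd.mp h1.symm
    simpa using this
  exact heckeTransfer_apply_of_trace_sq hℓ hM φ γ hγ

end Fermat.Agent.S59.TW.H653.Bdry
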